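import Fermat.Agent.RT8.L2.Core
import Fermat.Agent.DR.AllInputs
import Fermat.Agent.RT8.OldProp
import Fermat.Agent.JAN.AnnFinal

/-!
# RT8: `L2Odd` from `L2Input`
-/

set_option autoImplicit false
set_option linter.style.haveILetI false

open WeierstrassCurve WeierstrassCurve.Affine WeierstrassCurve.Affine.Point Polynomial
  IsLocalRing ModularCurve
open scoped WeierstrassCurve.Affine

namespace Fermat.Agent.RT8.L2

open Fermat.Agent.S30Wiring Fermat.Agent.S30Assembly Fermat.Agent.CMP.Newness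
  Fermat.Agent.DR.ResidualCompare Fermat.Agent.CMP.S35Assembly Fermat.Agent.DR.Mazur

local notation "Qbar" => AlgebraicClosure ℚ
local notation "Γℚ" => (AlgebraicClosure ℚ ≃ₐ[ℚ] AlgebraicClosure ℚ)

variable {p : ℕ} [hp : Fact p.Prime]

/-- **`q² N → q N`** for an elliptic curve, semistable at `q ≠ p`, from the geometric input. -/
theorem l2Gen (I : GAL.Final.AllInputs) (hp2 : p ≠ 2) (W : WeierstrassCurve ℤ) (hΔ : W.Δ ≠ 0)
    (hss : W.IsSemistableModel)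
    (hcard : Nat.card (Submodule.torsionBy ℤ
      ((W.map (Int.castRingHom ℚ))⁄(AlgebraicClosure ℚ)).Point p) = p ^ 2)
    (hker : GaloisFactorsThroughFiniteLevel
      (galoisRepModuleEnd (K := AlgebraicClosure ℚ) ℚ (W.map (Int.castRingHom ℚ)) p))
    (hirr : W.ModRepIsIrreducible p) {N q : ℕ} [NeZero N] [NeZero q] (hq : q.Prime)
    (hqp : q ≠ p)
    (hMI : ∀ S : Finset ℕ, p ∈ S → (∀ r : ℕ, r.Prime → r ∣ N * q * q → r ∈ S) → L2Input N q p S)
    (hres : W.IsResiduallyModularOfLevel p (N * q * q)) :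
    W.IsResiduallyModularOfLevel p (N * q) := by
  classical
  have h29 : S29Prop := fun hf _ hp' k _ _ φ => GAL.Final.s29 I hf hp' φ
  set ρ := (W.map (Int.castRingHom ℚ)).residualGaloisRepOf p hcard hker with hρdef
  have habs : ρ.IsAbsolutelyIrreducible :=
    isAbsolutelyIrreducible_of_modRepIsIrreducible hp2 W hΔ hcard hker hirr
  set S : Finset ℕ := W.Δ.natAbs.primeFactors ∪ (N * q * q).primeFactors ∪ {p} with hS
  have hpS : p ∈ S := by simp [hS]
  have hNS : ∀ r : ℕ, r.Prime → r ∣ N * q * q → r ∈ S := by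
    intro r hr hrN
    simp only [hS, Finset.mem_union, Nat.mem_primeFactors]
    exact Or.inl (Or.inr ⟨hr, hrN, NeZero.ne _⟩)
  have hΔS : ∀ r : ℕ, r.Prime → (r : ℤ) ∣ W.Δ → r ∈ S := by
    intro r hr hrΔ
    simp only [hS, Finset.mem_union, Nat.mem_primeFactors]
    exact Or.inl (Or.inl ⟨hr, Int.natCast_dvd.mp hrΔ, fun h => hΔ (Int.natAbs_eq_zero.mp h)⟩)
  have hMS : ∀ r : ℕ, r.Prime → r ∣ N * q → r ∈ S := fun r hr h => hNS r hr (h.mul_right q)
  let χ : AnemicAlg S →+* ZMod p := ellChar W p S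
  have hχ : ∀ t : AnemicAlg S, anemicEval hNS t = 0 → χ t = 0 := fun t ht =>
    ellChar_eq_zero W hpS hNS hΔS hres t ht
  by_cases hdesc : ∀ t : AnemicAlg S, anemicEval (N := N * q) hMS t = 0 → χ t = 0
  · -- level lowering
    obtain ⟨f, 𝔪, hf, h𝔪, hpm, hfa⟩ := exists_eigenform_of_mod hMS χ hdesc
    refine isResiduallyModularOfLevel_of_almost h29 W hΔ hcard hker (NeZero.ne (N * q)) f hf 𝔪 h𝔪
      hpm S fun ℓ hℓ _ _ _ hℓS => ?_
    exact hfa ℓ hℓ hℓS (W.apOfModel ℓ) (ellChar_X W S ℓ hℓ hℓS)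
  exfalso
  push Not at hdesc
  obtain ⟨t, ht, hχt⟩ := hdesc
  -- the Hecke module
  letI := heckeModuleBar (N * q * q)
  have G := GAL.Final.galInputs I (N * q * q) p hp.out
  haveI : SMulCommClass Γℚ HeckeAlg (JZero (N * q * q)) := G.galois_hecke
  letI : Module (AnemicAlg S) (JZero (N * q * q)) :=
    Module.compHom (JZero (N * q * q)) (anemicIncl S).toRingHom
  have hsmul : ∀ (a : AnemicAlg S) (x : JZero (N * q * q)), a • x = anemicIncl S a • x :=
    fun _ _ => rfl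
  haveI : SMulCommClass Γℚ (AnemicAlg S) (JZero (N * q * q)) :=
    ⟨fun g a x => by rw [hsmul, hsmul, smul_comm]⟩
  have hspec : SpecializationExists (K := ℚ) (L := Qbar) (N * q * q) p (JZero (N * q * q)) :=
    G.specialization G.galois_hecke
  have hfrob0 := frobeniusQuadratic_of_specialization hspec
  have hsm : ∀ x : JZero (N * q * q), ∃ L : IntermediateField ℚ Qbar, FiniteDimensional ℚ L ∧
      ∀ g : Γℚ, (∀ y ∈ L, g y = y) → g • x = x := G.smooth
  have hlev := fun n : ℕ => finite_level_of_smooth (J := JZero (N * q * q)) hsm n (G.finite n)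
  have hdvd : ∀ ℓ : ℕ, ℓ.Prime → ℓ ∉ S → ¬ ℓ ∣ N * q * q * p := by
    intro ℓ hℓ hℓS h
    rcases (Nat.Prime.dvd_mul hℓ).mp h with h | h
    · exact hℓS (hNS ℓ hℓ h)
    · rw [(Nat.prime_dvd_prime_iff_eq hℓ Fact.out).mp h] at hℓS
      exact hℓS hpS
  have hfrob : ∀ ℓ : ℕ, ℓ.Prime → ℓ ∉ S → ∀ B : ValuationSubring Qbar, B.LiesOverPrime ℓ →
      ∀ σ : Γℚ, B.IsFrobeniusAt σ ℓ → ∀ m : JZero (N * q * q), (∃ n : ℕ, p ^ n • m = 0) →
        σ • σ • m - gens S ℓ • (σ • m) + ℓ • m = 0 := by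
    intro ℓ hℓ hℓS B hB σ hσ m hm
    have h := hfrob0 ℓ hℓ (hdvd ℓ hℓ hℓS) B hB σ hσ m hm
    rw [gens_eq ℓ hℓ hℓS, hsmul, anemicIncl, MvPolynomial.rename_X]
    exact h
  have hρ : ∀ ℓ : ℕ, ℓ.Prime → ℓ ∉ S → ∀ B : ValuationSubring Qbar, B.LiesOverPrime ℓ →
      ∀ σ : Γℚ, B.IsFrobeniusAt σ ℓ →
        LinearMap.charpoly (ρ.ρ σ) = X ^ 2 - C (χ (gens S ℓ)) * X + C (ℓ : ZMod p) := by
    intro ℓ hℓ hℓS B hB σ hσ
    have hgood : W.IsGoodPrimeFor ℓ := fun h => hℓS (hΔS ℓ hℓ h)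
    have hℓp : ℓ ≠ p := by rintro rfl; exact hℓS hpS
    rw [gens_eq ℓ hℓ hℓS, ellChar_X, hρdef,
      EllRed.residualGaloisRepOf_charpoly_frobenius EllRed.frobCharpolyInputAll hcard hker hℓ hℓp
        hgood B hB hσ]
  obtain ⟨x₀, hx₀, hpx₀, hx₀χ⟩ := exists_torsion_of_lattice hNS (G.lattice S) G.finite χ hχ
  obtain ⟨ℓ, hℓ, hℓS, hneis⟩ := exists_not_eisenstein ρ habs S (fun ℓ => χ (gens S ℓ)) hρ
  obtain ⟨B, hB⟩ := FrobExists.exists_liesOverPrime Qbar hq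
  have hrel := hMI S hpS hNS hMS t ht B hB ℓ hℓ hℓS
  have hkey := l2_core S (gens S) hlev hfrob χ ρ hρ hp2 (B := B)
    (fun τ hτ => charpoly_inertia W hss hcard hker hq hqp hB hτ) (m₀ := x₀)
    ⟨hpx₀, hx₀χ⟩ hx₀ (t * (gens S ℓ - (ℓ + 1))) (by
      intro z hz hfix
      have h := hrel z hz hfix
      have e1 : anemicIncl S (t * (gens S ℓ - (ℓ + 1))) • z = anemicIncl S t •
          (anemicIncl S (MvPolynomial.X ⟨⟨ℓ, hℓ⟩, hℓS⟩) • z - (ℓ + 1) • z) := by
        rw [gens_eq ℓ hℓ hℓS, map_mul, map_sub, mul_smul, sub_smul, map_add, map_natCast, map_one,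
          add_smul, one_smul, Nat.cast_smul_eq_nsmul, add_smul, one_smul]
      rw [hsmul, e1]
      exact h)
  rw [map_mul, mul_eq_zero] at hkey
  rcases hkey with h | h
  · exact hχt h
  · rw [map_sub, map_add, map_natCast, map_one, sub_eq_zero] at h
    exact hneis h

/-- The geometric input of `q² N → q N` for odd `q` and `4 ∣ N`. -/
def L2Inputs : Prop :=
  ∀ (N q p : ℕ) [NeZero N] [NeZero q] (S : Finset ℕ), q.Prime → q ≠ 2 → p.Prime → p ≠ 2 →
    q ≠ p → ¬ q ∣ N → 4 ∣ N → p ∈ S → (∀ r : ℕ, r.Prime → r ∣ N * q * q → r ∈ S) →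
    L2Input N q p S

/-- **`L2Odd`** from the geometric input. -/
theorem l2Odd_of_inputs (H : L2Inputs) : L2Odd := by
  intro p hp W hΔ hss hirr q hq hqp hq2 N hN0 hqN h4N _ hres
  have hpp : p.Prime := by rcases hp with rfl | rfl <;> norm_num
  have hp2 : p ≠ 2 := by rcases hp with rfl | rfl <;> norm_num
  have hpF : Fact p.Prime := ⟨hpp⟩
  have hell := EllTorsion.isElliptic_map_of_Δ_ne_zero hΔ
  have hcard : Nat.card (Submodule.torsionBy ℤ
      ((W.map (Int.castRingHom ℚ))⁄(AlgebraicClosure ℚ)).Point p) = p ^ 2 :=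
    EllTorsion.card_torsionBy_rat _ hpp.ne_zero
  have hker := EllTorsion.galoisRepModuleEnd_factorsThroughFiniteLevel
    (W.map (Int.castRingHom ℚ)) hpp.ne_zero
  have i1 : NeZero N := ⟨hN0⟩
  have i2 : NeZero q := ⟨hq.ne_zero⟩
  have e1 : q ^ 2 * N = N * q * q := by ring
  rw [e1] at hres
  rw [mul_comm q N]
  exact l2Gen DR.allInputs hp2 W hΔ hss hcard hker hirr hq hqp
    (fun S hpS hNS => H N q p S hq hq2 hpp hp2 hqp hqN h4N hpS hNS) hres

/-- The geometric input from the theorem OLD. -/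
theorem l2Input_of_old {N q p : ℕ} [NeZero N] [NeZero q] {S : Finset ℕ} (hq : q.Prime)
    (hp : p.Prime) (hNS : ∀ r : ℕ, r.Prime → r ∣ N * q * q → r ∈ S) (H : OldProp N q p) :
    L2Input N q p S := by
  letI := heckeModuleBar (N * q * q)
  intro hMS t ht B hB ℓ hℓ hℓS x hx hfix
  have hqS : q ∈ S := hNS q hq (dvd_mul_left q _)
  have hℓN : ¬ ℓ ∣ N * q := fun h => hℓS (hMS ℓ hℓ h)
  obtain ⟨y, y', hy, hy', hyy⟩ := H B hB x hx hfix ⟨ℓ, hℓ⟩ hℓN
  have h1 : anemicIncl S (MvPolynomial.X ⟨⟨ℓ, hℓ⟩, hℓS⟩) • x =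
      heckeOperatorBar (N * q * q) ⟨ℓ, hℓ⟩ x := by
    rw [anemicIncl, MvPolynomial.rename_X]
    exact heckeModuleBar_heckeGen_smul (JAN.Degree.heckeOperatorsCommuteBar (N * q * q)) _ x
  have h2 : (ℓ + 1) • x = ((ℓ : ℕ) + 1 : ℤ) • x := by
    rw [← natCast_zsmul]
    push_cast
    rfl
  rw [h1, h2]
  have h3 := congrArg (fun z => anemicIncl S t • z) hyy
  refine h3.trans ?_
  change anemicIncl S t • (_ + _) = (0 : JZero (N * q * q))
  rw [smul_add]
  have e1 := JAN.Degeneracy.alphaPull_anemic (N := N * q) hq hqS t y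
  have e2 := JAN.Degeneracy.betaPull_anemic (N := N * q) hq hqS t y'
  have z1 := JAN.AnnFinal.smul_eq_zero_of_torsion hMS ht hp.ne_zero hy
  have z2 := JAN.AnnFinal.smul_eq_zero_of_torsion hMS ht hp.ne_zero hy'
  have f1 : anemicIncl S t • JAN.Degeneracy.alphaPull (N * q) q y = (0 : JZero (N * q * q)) :=
    e1.symm.trans ((congrArg _ z1).trans (map_zero _))
  have f2 : anemicIncl S t • JAN.Degeneracy.betaPull (N * q) q y' = (0 : JZero (N * q * q)) :=
    e2.symm.trans ((congrArg _ z2).trans (map_zero _))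
  rw [f1, f2, add_zero]

/-- **`L2Odd`** from the theorem OLD. -/
theorem l2Odd_of (h : ∀ (N q p : ℕ) [NeZero N] [NeZero q], q.Prime → q ≠ 2 → ¬ q ∣ N → 4 ∣ N →
    p.Prime → p ≠ q → OldProp N q p) : RT8.L2Odd :=
  l2Odd_of_inputs fun N q p _ _ _ hq hq2 hp _ hqp hqN h4N _ hNS =>
    l2Input_of_old hq hp hNS (h N q p hq hq2 hqN h4N hp hqp.symm)

end Fermat.Agent.RT8.L2
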