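import Fermat.Agent.DR.Mazur.Assembly
import Fermat.Agent.CMP.InertiaFixed
import Fermat.Agent.RT8.LevelOpt

/-!
# RT8: `q² N → q N`, the Galois and Hecke part

`L2Input N q p S`: for every Hecke polynomial `t` in the `T_ℓ`, `ℓ ∉ S`, killing `S₂(Γ₀(Nq))` and every
`ℓ ∉ S`, `t (T_ℓ - ℓ - 1)` kills the inertia invariants of `J₀(Nq²)[p]`.
-/

set_option autoImplicit false
set_option linter.style.haveILetI false
set_option linter.unusedSectionVars false

open WeierstrassCurve WeierstrassCurve.Affine WeierstrassCurve.Affine.Point Polynomial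
  IsLocalRing ModularCurve
open scoped WeierstrassCurve.Affine

namespace Fermat.Agent.RT8.L2

open Fermat.Agent.S30Wiring Fermat.Agent.S30Assembly Fermat.Agent.CMP.Newness
  Fermat.Agent.DR.ResidualCompare Fermat.Agent.CMP.S35Assembly Fermat.Agent.DR.Mazur

local notation "Qbar" => AlgebraicClosure ℚ
local notation "Γℚ" => (AlgebraicClosure ℚ ≃ₐ[ℚ] AlgebraicClosure ℚ)

section Core

variable {p : ℕ} [hp : Fact p.Prime] {A J : Type*} [CommRing A] [AddCommGroup J] [Module A J]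
  [DistribMulAction Γℚ J] [SMulCommClass Γℚ A J]

variable (S : Finset ℕ) (x : ℕ → A)
    (hlev : ∀ n : ℕ, ∃ L : IntermediateField ℚ Qbar, FiniteDimensional ℚ L ∧
      ∀ σ : Γℚ, (∀ y ∈ L, σ y = y) → ∀ m : J, p ^ n • m = 0 → σ • m = m)
    (hfrob : ∀ ℓ : ℕ, ℓ.Prime → ℓ ∉ S → ∀ B : ValuationSubring Qbar, B.LiesOverPrime ℓ →
      ∀ σ : Γℚ, B.IsFrobeniusAt σ ℓ → ∀ m : J, (∃ n : ℕ, p ^ n • m = 0) →
        σ • σ • m - x ℓ • (σ • m) + ℓ • m = 0)
    (χ : A →+* ZMod p) (ρ : ResidualGaloisRep (ZMod p))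
    (hρ : ∀ ℓ : ℕ, ℓ.Prime → ℓ ∉ S → ∀ B : ValuationSubring Qbar, B.LiesOverPrime ℓ →
      ∀ σ : Γℚ, B.IsFrobeniusAt σ ℓ →
        LinearMap.charpoly (ρ.ρ σ) = X ^ 2 - C (χ (x ℓ)) * X + C (ℓ : ZMod p))

theorem nsmul_eq_of_cast {c d : ℕ} {z : J} (hz : p • z = 0) (hcd : (c : ZMod p) = d) :
    c • z = d • z := by
  rw [ZMod.natCast_eq_natCast_iff] at hcd
  have h3 : ∀ n : ℕ, n • z = (n % p) • z := by
    intro n
    conv_lhs => rw [← Nat.div_add_mod n p, add_smul, mul_comm, mul_smul, hz, smul_zero, zero_add]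
  rw [h3 c, h3 d]
  exact congrArg (· • z) hcd

include hlev hfrob hρ in
/-- unipotent elements of `ρ` are unipotent on `J[p][ker χ]` -/
theorem unip_of_charpoly {g : Γℚ} (hg : LinearMap.charpoly (ρ.ρ g) = (X - 1) ^ 2) {m : J}
    (hpm : p • m = 0) (hm : ∀ a : A, χ a = 0 → a • m = 0) :
    g • g • m - 2 • (g • m) + m = 0 := by
  have h1 := trace_relation S x hlev hfrob χ ρ hρ g hpm hm
  rw [BN2.charpoly_eq_of_finrank_two ρ.finrank_eq] at hg
  have hd : LinearMap.det (ρ.ρ g) = ((1 : ℕ) : ZMod p) := by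
    have h2 := congrArg (fun P => P.eval 0) hg
    simpa using h2
  have ht : LinearMap.trace (ZMod p) ρ.V (ρ.ρ g) = ((2 : ℕ) : ZMod p) := by
    have h2 := congrArg (fun P => P.eval 1) hg
    simp only [eval_add, eval_sub, eval_pow, eval_mul, eval_X, eval_C, eval_one] at h2
    rw [hd] at h2
    push_cast at h2 ⊢
    linear_combination -h2
  have hpg : p • (g⁻¹ • m) = 0 := by rw [← gal_nsmul, hpm, smul_zero]
  rw [nsmul_eq_of_cast (d := 1) hpg (by rw [ZMod.natCast_zmod_val, hd]),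
    nsmul_eq_of_cast (d := 2) hpm (by rw [ZMod.natCast_zmod_val, ht]), one_smul] at h1
  have h3 := congrArg (fun z => g • z) h1
  simp only [smul_add, smul_inv_smul] at h3
  rw [gal_nsmul] at h3
  rw [← h3]
  abel

include hlev hfrob hρ in
/-- **The final argument**: if inertia at `q` acts unipotently in `ρ`, an element `s` of the Hecke
algebra killing the inertia invariants of `J[p]` lies in `ker χ`. -/
theorem l2_core (hp2 : p ≠ 2) {B : ValuationSubring Qbar}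
    (huni : ∀ τ ∈ B.inertiaSubgroupIn ℚ, LinearMap.charpoly (ρ.ρ τ) = (X - 1) ^ 2)
    {m₀ : J} (hm₀ : m₀ ∈ tors J χ) (hm₀' : m₀ ≠ 0) (s : A)
    (hrel : ∀ z : J, p • z = 0 → (∀ τ ∈ B.inertiaSubgroupIn ℚ, τ • z = z) → s • z = 0) :
    χ s = 0 := by
  have h1 : s ^ 3 • m₀ = 0 :=
    CMP.InertiaFixed.cube_smul (hp.out.odd_of_ne_two hp2) (RingHom.ker χ)
      (B.inertiaSubgroupIn ℚ)
      (fun τ hτ z hz hzb => unip_of_charpoly S x hlev hfrob χ ρ hρ (huni τ hτ) hz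
        fun a ha => hzb a ha) s hrel hm₀.1 fun b hb => hm₀.2 b hb
  obtain ⟨c, hc⟩ := ZMod.intCast_surjective (χ (s ^ 3))
  rw [smul_of_mem_tors hm₀ hc.symm] at h1
  by_contra hs
  have hs3 : χ (s ^ 3) ≠ 0 := by rw [map_pow]; exact pow_ne_zero 3 hs
  obtain ⟨u, hu⟩ := ZMod.intCast_surjective (χ (s ^ 3))⁻¹
  have h2 : ((u * c : ℤ) : ZMod p) = ((1 : ℤ) : ZMod p) := by
    push_cast
    rw [hu, hc, inv_mul_cancel₀ hs3]
  rw [ZMod.intCast_eq_intCast_iff_dvd_sub] at h2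
  obtain ⟨d, hd⟩ := h2
  have h3 : u * c = 1 - d * p := by linarith
  apply hm₀'
  have h4 : (u * c) • m₀ = 0 := by rw [mul_smul, h1, smul_zero]
  rwa [h3, sub_smul, one_smul, mul_smul, natCast_zsmul, hm₀.1, smul_zero, sub_zero] at h4

end Core

/-- **Geometric input of `q² N → q N`.** -/
def L2Input (N q p : ℕ) [NeZero N] [NeZero q] (S : Finset ℕ) : Prop :=
  letI := heckeModuleBar (N * q * q)
  ∀ (hMS : ∀ r : ℕ, r.Prime → r ∣ N * q → r ∈ S) (t : AnemicAlg S),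
    anemicEval (N := N * q) hMS t = 0 →
    ∀ B : ValuationSubring Qbar, B.LiesOverPrime q →
      ∀ (ℓ : ℕ) (hℓ : ℓ.Prime) (hℓS : ℓ ∉ S) (x : JZero (N * q * q)), p • x = 0 →
        (∀ τ ∈ B.inertiaSubgroupIn ℚ, τ • x = x) →
        anemicIncl S t • (anemicIncl S (MvPolynomial.X ⟨⟨ℓ, hℓ⟩, hℓS⟩) • x - (ℓ + 1) • x) = 0

section Main

variable {p : ℕ} [hp : Fact p.Prime]

/-- inertia at `q` acts unipotently on `E[p]` -/
theorem charpoly_inertia (W : WeierstrassCurve ℤ) (hss : W.IsSemistableModel)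
    (hcard : Nat.card (Submodule.torsionBy ℤ
      ((W.map (Int.castRingHom ℚ))⁄(AlgebraicClosure ℚ)).Point p) = p ^ 2)
    (hker : GaloisFactorsThroughFiniteLevel
      (galoisRepModuleEnd (K := AlgebraicClosure ℚ) ℚ (W.map (Int.castRingHom ℚ)) p))
    {q : ℕ} (hq : q.Prime) (hqp : q ≠ p) {B : ValuationSubring Qbar} (hB : B.LiesOverPrime q)
    {τ : Γℚ} (hτ : τ ∈ B.inertiaSubgroupIn ℚ) :
    LinearMap.charpoly (((W.map (Int.castRingHom ℚ)).residualGaloisRepOf p hcard hker).ρ τ) =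
      (X - 1) ^ 2 := by
  refine Tate.charpoly_eq_of_sq_eq_zero (ResidualGaloisRep.finrank_eq _) _ ?_
  refine LinearMap.ext fun v => Subtype.ext ?_
  have h1 := LOC.inertia_smul_sub W hq (fun h => hss q hq h) B hB (m := p)
    (fun h => hqp ((Nat.prime_dvd_prime_iff_eq hq hp.out).mp h)) hτ (P := v.1) (by
      rw [← natCast_zsmul]
      exact (Submodule.mem_torsionBy_iff _ _).mp v.2)
  change τ • (τ • v.1 - v.1) - (τ • v.1 - v.1) = 0
  rw [h1, sub_self]

end Main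

end Fermat.Agent.RT8.L2
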